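/-
S05: valuations of integers for a valuation lying over a rational prime.
-/
import Mathlib
import Fermat.Agent.MUL.Orig.S05.H5.RedB

set_option autoImplicit false

namespace S05H5

variable {K : Type*} [Field K] {Γ₀ : Type*} [LinearOrderedCommGroupWithZero Γ₀]

/-- An integer not divisible by `q` is a unit for any valuation over `q`. -/
theorem v_intCast_eq_one (v : Valuation K Γ₀) {q : ℕ} (hq : q.Prime) (hvq : v (q : K) < 1)
    {n : ℤ} (hn : ¬ (q : ℤ) ∣ n) : v (n : K) = 1 := by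
  apply le_antisymm (vle_intCast v n)
  by_contra hlt
  rw [not_le] at hlt
  have hcop : IsCoprime (q : ℤ) n := by
    rw [Int.isCoprime_iff_gcd_eq_one]
    have hp : Prime (q : ℤ) := Nat.prime_iff_prime_int.mp hq
    exact Int.isCoprime_iff_gcd_eq_one.mp ((Prime.coprime_iff_not_dvd hp).mpr hn)
  obtain ⟨a, b, hab⟩ := hcop
  have h1 : (a : K) * (q : K) + (b : K) * (n : K) = 1 := by
    have := congrArg (fun z : ℤ => (z : K)) hab
    simpa using this
  have h2 : v ((a : K) * (q : K) + (b : K) * (n : K)) < 1 :=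
    vlt_add v (vlt_mul_left v (vle_intCast v a) hvq) (vlt_mul_left v (vle_intCast v b) hlt)
  rw [h1, map_one] at h2
  exact lt_irrefl _ h2

/-- An integer divisible by `q` is a nonunit for any valuation over `q`. -/
theorem v_intCast_lt_one (v : Valuation K Γ₀) {q : ℕ} (hvq : v (q : K) < 1)
    {n : ℤ} (hn : (q : ℤ) ∣ n) : v (n : K) < 1 := by
  obtain ⟨k, rfl⟩ := hn
  push_cast
  exact vlt_mul_right v hvq (vle_intCast v k)

theorem v_natCast_eq_one (v : Valuation K Γ₀) {q : ℕ} (hq : q.Prime) (hvq : v (q : K) < 1)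
    {n : ℕ} (hn : ¬ q ∣ n) : v (n : K) = 1 := by
  have : ¬ (q : ℤ) ∣ (n : ℤ) := by
    rwa [Int.natCast_dvd_natCast]
  simpa using v_intCast_eq_one v hq hvq this

theorem v_two_eq_one (v : Valuation K Γ₀) {q : ℕ} (hq : q.Prime) (hvq : v (q : K) < 1)
    (hq2 : q ≠ 2) : v (2 : K) = 1 := by
  have h : ¬ q ∣ 2 := by
    intro h
    exact hq2 ((Nat.prime_dvd_prime_iff_eq hq Nat.prime_two).mp h)
  simpa using v_natCast_eq_one v hq hvq h

theorem v_prime_eq_one (v : Valuation K Γ₀) {q : ℕ} (hq : q.Prime) (hvq : v (q : K) < 1)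
    {p : ℕ} (hp : p.Prime) (hqp : q ≠ p) : v (p : K) = 1 := by
  have h : ¬ q ∣ p := by
    intro h
    exact hqp ((Nat.prime_dvd_prime_iff_eq hq hp).mp h)
  exact v_natCast_eq_one v hq hvq h

end S05H5
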