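/-
S05: abstract Galois cores.  A field automorphism `σ` acting trivially modulo the maximal ideal
fixes torsion points (good reduction case; nodal case modulo the component analysis).
-/
import Mathlib
import Fermat.Agent.MUL.Orig.S05.H5.Sing
import Fermat.Agent.MUL.Orig.S05.H75.KerRed
import Fermat.Agent.MUL.S36.Seed.UMidRed

set_option autoImplicit false

namespace S05H5

open WeierstrassCurve WeierstrassCurve.Affine S05H65 S05H75

variable {K : Type*} [Field K] [DecidableEq K] {Γ₀ : Type*} [LinearOrderedCommGroupWithZero Γ₀]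

section bInvariants

omit [DecidableEq K] in
theorem v_b_le_one (v : Valuation K Γ₀) (W : Affine K)
    (ha₁ : v W.a₁ ≤ 1) (ha₂ : v W.a₂ ≤ 1) (ha₃ : v W.a₃ ≤ 1) (ha₄ : v W.a₄ ≤ 1)
    (ha₆ : v W.a₆ ≤ 1) : v W.b₂ ≤ 1 ∧ v W.b₄ ≤ 1 ∧ v W.b₆ ≤ 1 ∧ v W.b₈ ≤ 1 := by
  have ha₁' : W.a₁ ∈ v.integer := ha₁
  have ha₂' : W.a₂ ∈ v.integer := ha₂
  have ha₃' : W.a₃ ∈ v.integer := ha₃
  have ha₄' : W.a₄ ∈ v.integer := ha₄
  have ha₆' : W.a₆ ∈ v.integer := ha₆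
  simp only [WeierstrassCurve.b₂, WeierstrassCurve.b₄, WeierstrassCurve.b₆, WeierstrassCurve.b₈]
  refine ⟨?_, ?_, ?_, ?_⟩
  · show _ ∈ v.integer
    aesop
  · show _ ∈ v.integer
    aesop
  · show _ ∈ v.integer
    aesop
  · show _ ∈ v.integer
    have h1 : W.a₁ ^ 2 * W.a₆ ∈ v.integer := by aesop
    have h2 : 4 * W.a₂ * W.a₆ ∈ v.integer := by aesop
    have h3 : W.a₁ * W.a₃ * W.a₄ ∈ v.integer := by aesop
    have h4 : W.a₂ * W.a₃ ^ 2 ∈ v.integer := by aesop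
    have h5 : W.a₄ ^ 2 ∈ v.integer := by aesop
    exact Subring.sub_mem _ (Subring.add_mem _ (Subring.sub_mem _ (Subring.add_mem _ h1 h2) h3)
      h4) h5

end bInvariants

section GaloisCore

variable {R S : Type*} [CommRing R] [CommRing S] [Algebra R S] [Algebra R K] [Algebra S K]
  [IsScalarTower R S K]

/-- Good reduction core: if `σ` acts trivially modulo the maximal ideal, the discriminant is a
unit, and `n` is a unit, then `σ` fixes every `n`-torsion point. -/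
theorem map_eq_self_of_good_reduction (v : Valuation K Γ₀) (W' : Affine R)
    (ha₁ : v (W'⁄K).a₁ ≤ 1) (ha₂ : v (W'⁄K).a₂ ≤ 1) (ha₃ : v (W'⁄K).a₃ ≤ 1)
    (ha₄ : v (W'⁄K).a₄ ≤ 1) (ha₆ : v (W'⁄K).a₆ ≤ 1)
    (hΔ : ¬ v (W'⁄K).Δ < 1)
    (σ : K →ₐ[S] K) (hσ : ∀ a : K, v a ≤ 1 → v (σ a - a) < 1)
    {n : ℕ} (hn : v (n : K) = 1) (X : (W'⁄K).Point) (hX : n • X = 0) :
    Point.map σ X = X := by
  obtain ⟨hb₂, hb₄, hb₆, hb₈⟩ := v_b_le_one v (W'⁄K) ha₁ ha₂ ha₃ ha₄ ha₆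
  rcases X with _ | ⟨x, y, h⟩
  · rfl
  · have hx : v x ≤ 1 := by
      by_contra hx
      rw [not_le] at hx
      have : (Point.some x y h : (W'⁄K).Point) = 0 :=
        inG1_torsion_free v hb₂ hb₄ hb₆ hb₈ hn (Or.inr hx) hX
      exact Point.some_ne_zero h this
    have hy : v y ≤ 1 := v_y_le_one v (W'⁄K) ha₁ ha₂ ha₃ ha₄ ha₆ h.1 hx
    have hmap : Point.map σ (Point.some x y h) = Point.some (σ x) (σ y)
        ((W'.baseChange_nonsingular σ.injective x y).mpr h) := Point.map_some σ h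
    rw [hmap]
    have hns : ¬ (v ((W'⁄K).a₁ * y - (3 * x ^ 2 + 2 * (W'⁄K).a₂ * x + (W'⁄K).a₄)) < 1 ∧
        v (2 * y + (W'⁄K).a₁ * x + (W'⁄K).a₃) < 1) := by
      rintro ⟨h1, h2⟩
      exact hΔ (v_Δ_lt_one_of_singular v (W'⁄K) ha₁ ha₂ h.1 hx h1 h2)
    have hσx : v (x - σ x) < 1 := by rw [Valuation.map_sub_swap]; exact hσ x hx
    have hσy : v (y - σ y) < 1 := by rw [Valuation.map_sub_swap]; exact hσ y hy
    have hσx1 : v (σ x) ≤ 1 := by
      have : σ x = (σ x - x) + x := by ring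
      rw [this]; exact vle_add v (le_of_lt (hσ x hx)) hx
    have hB := sub_eq_zero_or_one_lt_v_px v (W'⁄K) ha₁ ha₂ h
      ((W'.baseChange_nonsingular σ.injective x y).mpr h) hx hσx1 hσx hσy hns
    have htor : n • (Point.some x y h -
        Point.some (σ x) (σ y) ((W'.baseChange_nonsingular σ.injective x y).mpr h)) = 0 := by
      rw [← hmap, smul_sub, hX, ← map_nsmul, hX, map_zero, sub_zero]
    have := inG1_torsion_free v hb₂ hb₄ hb₆ hb₈ hn hB htor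
    exact (sub_eq_zero.mp this).symm


/-- The "identity component" predicate in the nodal model (node at `ξ = 4x - s ≡ 0`). -/
def G0' (v : Valuation K Γ₀) (s : K) {W : Affine K} (T : W.Point) : Prop :=
  T = 0 ∨ 1 ≤ v (4 * px T - s)

omit [DecidableEq K] in
/-- In the nodal model, an integral point with `ξ` a unit has nonsingular reduction. -/
theorem nonsingular_reduction_of_xi_unit (v : Valuation K Γ₀) (W : Affine K)
    (ha₁ : v W.a₁ ≤ 1)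
    (s d b : K) (hb₂ : W.b₂ = b - 3 * s) (hb₄ : 8 * W.b₄ = 3 * s ^ 2 - 2 * s * b - d ^ 2)
    (hb₆ : 16 * W.b₆ = (s ^ 2 - d ^ 2) * (b - s))
    (hs : v s ≤ 1) (hd : v d < 1)
    {x y : K} (h : W.Equation x y) (hx : v x ≤ 1) (hξ : 1 ≤ v (4 * x - s)) :
    ¬ (v (W.a₁ * y - (3 * x ^ 2 + 2 * W.a₂ * x + W.a₄)) < 1 ∧
        v (2 * y + W.a₁ * x + W.a₃) < 1) := by
  rintro ⟨hFx, hFy⟩
  have h4 : v (4 : K) ≤ 1 := vle_ofNat v 4
  have hξ1 : v (4 * x - s) ≤ 1 := vle_sub v (vle_mul v h4 hx) hs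
  have hξe : v (4 * x - s) = 1 := le_antisymm hξ1 hξ
  set ξ := 4 * x - s with hξdef
  -- ξ² - d² is a unit
  have hd2 : v (d ^ 2) < 1 := by
    rw [pow_two]; exact vlt_mul_left v (le_of_lt hd) hd
  have hu : v (ξ ^ 2 - d ^ 2) = 1 := by
    have : v (ξ ^ 2) = 1 := by rw [map_pow, hξe, one_pow]
    rw [Valuation.map_sub_eq_of_lt_left, this]
    rw [this]; exact hd2
  -- psi2sq is small
  have hpsi : (2 * y + W.a₁ * x + W.a₃) ^ 2 = 4 * x ^ 3 + W.b₂ * x ^ 2 + 2 * W.b₄ * x + W.b₆ := by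
    have := psi_sq_formula h
    rw [← this]; simp only [Affine.negY]; ring
  have hg : (ξ ^ 2 - d ^ 2) * (ξ + b) = 16 * (2 * y + W.a₁ * x + W.a₃) ^ 2 := by
    rw [hpsi, hξdef]
    linear_combination (-16 * x ^ 2) * hb₂ - 4 * x * hb₄ - hb₆
  have hξb : v (ξ + b) < 1 := by
    have h1 : v ((ξ ^ 2 - d ^ 2) * (ξ + b)) < 1 := by
      rw [hg, pow_two]
      exact vlt_mul_left v (vle_ofNat v 16) (vlt_mul_left v (le_of_lt hFy) hFy)
    rw [map_mul, hu, one_mul] at h1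
    exact h1
  -- the derivative is small
  have hder : 2 * ξ * (ξ + b) + (ξ ^ 2 - d ^ 2) =
      4 * (2 * W.a₁ * (2 * y + W.a₁ * x + W.a₃) -
        4 * (W.a₁ * y - (3 * x ^ 2 + 2 * W.a₂ * x + W.a₄))) := by
    have e2 : W.b₂ = W.a₁ ^ 2 + 4 * W.a₂ := rfl
    have e4 : W.b₄ = 2 * W.a₄ + W.a₁ * W.a₃ := rfl
    rw [hξdef]
    linear_combination (-8 * x) * hb₂ - hb₄ + 8 * x * e2 + 8 * e4
  have hsmall : v (ξ ^ 2 - d ^ 2) < 1 := by
    have e : ξ ^ 2 - d ^ 2 = 4 * (2 * W.a₁ * (2 * y + W.a₁ * x + W.a₃) -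
        4 * (W.a₁ * y - (3 * x ^ 2 + 2 * W.a₂ * x + W.a₄))) - 2 * ξ * (ξ + b) := by
      rw [← hder]; ring
    rw [e]
    refine vlt_sub v (vlt_mul_left v h4 (vlt_sub v ?_ ?_)) ?_
    · exact vlt_mul_left v (vle_mul v (vle_ofNat v 2) ha₁) hFy
    · exact vlt_mul_left v h4 hFx
    · exact vlt_mul_left v (vle_mul v (vle_ofNat v 2) hξ1) hξb
  rw [hu] at hsmall
  exact lt_irrefl _ hsmall

/-- (B') : a point of the identity component is moved by `σ` within the kernel of reduction. -/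
theorem inG1_map_sub_of_G0' (v : Valuation K Γ₀) (W' : Affine R)
    (ha₁ : v (W'⁄K).a₁ ≤ 1) (ha₂ : v (W'⁄K).a₂ ≤ 1) (ha₃ : v (W'⁄K).a₃ ≤ 1)
    (ha₄ : v (W'⁄K).a₄ ≤ 1) (ha₆ : v (W'⁄K).a₆ ≤ 1)
    (s d b : K) (hb₂ : (W'⁄K).b₂ = b - 3 * s)
    (hb₄ : 8 * (W'⁄K).b₄ = 3 * s ^ 2 - 2 * s * b - d ^ 2)
    (hb₆ : 16 * (W'⁄K).b₆ = (s ^ 2 - d ^ 2) * (b - s))
    (hs : v s ≤ 1) (hd : v d < 1)
    (σ : K →ₐ[S] K) (hσ : ∀ a : K, v a ≤ 1 → v (σ a - a) < 1)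
    (hσ' : ∀ a : K, 1 < v a → 1 < v (σ a))
    (w : (W'⁄K).Point) (hw : G0' v s w) : InG1 v (Point.map σ w - w) := by
  obtain ⟨hb₂', hb₄', hb₆', hb₈'⟩ := v_b_le_one v (W'⁄K) ha₁ ha₂ ha₃ ha₄ ha₆
  rcases w with _ | ⟨x, y, h⟩
  · left
    exact sub_self _
  · have hξ : 1 ≤ v (4 * x - s) := by
      rcases hw with hw | hw
      · exact absurd hw (Point.some_ne_zero h)
      · simpa using hw
    have hmap : Point.map σ (Point.some x y h) = Point.some (σ x) (σ y)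
        ((W'.baseChange_nonsingular σ.injective x y).mpr h) := Point.map_some σ h
    rw [hmap]
    by_cases hx : v x ≤ 1
    · have hy : v y ≤ 1 := v_y_le_one v (W'⁄K) ha₁ ha₂ ha₃ ha₄ ha₆ h.1 hx
      have hns := nonsingular_reduction_of_xi_unit v (W'⁄K) ha₁ s d b hb₂ hb₄ hb₆ hs hd
        h.1 hx hξ
      have hσx : v (x - σ x) < 1 := by rw [Valuation.map_sub_swap]; exact hσ x hx
      have hσy : v (y - σ y) < 1 := by rw [Valuation.map_sub_swap]; exact hσ y hy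
      have hσx1 : v (σ x) ≤ 1 := by
        have : σ x = (σ x - x) + x := by ring
        rw [this]; exact vle_add v (le_of_lt (hσ x hx)) hx
      have hB : InG1 v (Point.some x y h - Point.some (σ x) (σ y)
          ((W'.baseChange_nonsingular σ.injective x y).mpr h)) :=
        sub_eq_zero_or_one_lt_v_px v (W'⁄K) ha₁ ha₂ h
          ((W'.baseChange_nonsingular σ.injective x y).mpr h) hx hσx1 hσx hσy hns
      have := inG1_neg v hB
      rwa [neg_sub] at this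
    · rw [not_le] at hx
      have h1 : InG1 v (Point.some x y h : (W'⁄K).Point) := Or.inr hx
      have h2 : InG1 v (Point.some (σ x) (σ y)
          ((W'.baseChange_nonsingular σ.injective x y).mpr h) : (W'⁄K).Point) :=
        Or.inr (hσ' x hx)
      exact inG1_sub v hb₂' hb₄' hb₆' hb₈' h2 h1

/-- Nodal core: given the component analysis (existence of a `σ`-fixed point `Z` with
`X ∓ Z` in the identity component), `σ` fixes the torsion point `X`. -/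
theorem map_eq_self_of_nodal (v : Valuation K Γ₀) (W' : Affine R)
    (ha₁ : v (W'⁄K).a₁ ≤ 1) (ha₂ : v (W'⁄K).a₂ ≤ 1) (ha₃ : v (W'⁄K).a₃ ≤ 1)
    (ha₄ : v (W'⁄K).a₄ ≤ 1) (ha₆ : v (W'⁄K).a₆ ≤ 1)
    (s d b : K) (hb₂ : (W'⁄K).b₂ = b - 3 * s)
    (hb₄ : 8 * (W'⁄K).b₄ = 3 * s ^ 2 - 2 * s * b - d ^ 2)
    (hb₆ : 16 * (W'⁄K).b₆ = (s ^ 2 - d ^ 2) * (b - s))
    (hs : v s ≤ 1) (hd : v d < 1)
    (σ : K →ₐ[S] K) (hσ : ∀ a : K, v a ≤ 1 → v (σ a - a) < 1)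
    (hσ' : ∀ a : K, 1 < v a → 1 < v (σ a))
    {n : ℕ} (hn : v (n : K) = 1) (X : (W'⁄K).Point) (hX : n • X = 0)
    (hC : v (4 * px X - s) < 1 → X ≠ 0 →
      ∃ Z : (W'⁄K).Point, Point.map σ Z = Z ∧ (G0' v s (X - Z) ∨ G0' v s (X + Z))) :
    Point.map σ X = X := by
  obtain ⟨hb₂', hb₄', hb₆', hb₈'⟩ := v_b_le_one v (W'⁄K) ha₁ ha₂ ha₃ ha₄ ha₆
  have hB' := inG1_map_sub_of_G0' v W' ha₁ ha₂ ha₃ ha₄ ha₆ s d b hb₂ hb₄ hb₆ hs hd σ hσ hσ'
  have htor : n • (Point.map σ X - X) = 0 := by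
    rw [smul_sub, hX, ← map_nsmul, hX, map_zero, sub_zero]
  suffices hG1 : InG1 v (Point.map σ X - X) by
    exact sub_eq_zero.mp (inG1_torsion_free v hb₂' hb₄' hb₆' hb₈' hn hG1 htor)
  by_cases hX0 : X = 0
  · left; rw [hX0, map_zero, sub_zero]
  by_cases hξ : v (4 * px X - s) < 1
  · obtain ⟨Z, hZ, hw | hw⟩ := hC hξ hX0
    · have := hB' (X - Z) hw
      rwa [map_sub, hZ, sub_sub_sub_cancel_right] at this
    · have := hB' (X + Z) hw
      rwa [map_add, hZ, add_sub_add_right_eq_sub] at this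
  · exact hB' X (Or.inr (not_lt.mp hξ))

end GaloisCore

end S05H5
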